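import Mathlib
import Fermat.Agent.LT.T6.Spec

/-!
# Row LT, tower T6, leaf T6.19 `OrbSumIntC` (helper584): the algebra of `2 × 2` matrices

OFF-MAIN.  Mathlib + `LT/T6/Spec.lean` (v3, sha256 `8c5f2ae7`, byte-identical).

* `trace_mul_quad584` : for commuting `t, u` the trace `X = tr(tu)` satisfies
  `X² = tr t · tr u · X - (tr t)² det u - det t (tr u)² + 4 det t det u`;
* `val_le_one_of_quad584` : a root of `X² = a X + b`, `a, b` integral, is integral;
* `commute_of_reg584` : the centraliser of a regular `2 × 2` matrix over a field is commutative;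
* `twCent_mul_twN584` : the twisted centraliser of `δ` commutes with the norm of `δ`.
-/

set_option autoImplicit false
set_option linter.unusedSectionVars false

open Matrix

noncomputable section

namespace Fermat.Agent.LT.T6.H584

open Fermat.Agent.LT.T6

section Ring

variable {R : Type} [CommRing R]

/-- Cayley--Hamilton for `2 × 2` matrices. -/
theorem sq_eq_ch584 (A : Matrix (Fin 2) (Fin 2) R) :
    A * A = A.trace • A - A.det • (1 : Matrix (Fin 2) (Fin 2) R) := by
  ext i j
  fin_cases i <;> fin_cases j <;>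
    simp [Matrix.mul_apply, Fin.sum_univ_two, Matrix.trace_fin_two, Matrix.det_fin_two] <;> ring

theorem trace_sq584 (A : Matrix (Fin 2) (Fin 2) R) :
    (A * A).trace = A.trace ^ 2 - 2 * A.det := by
  rw [sq_eq_ch584]
  simp [Matrix.trace_sub, Matrix.trace_smul, Matrix.trace_one]
  ring

/-- The quadratic equation of `tr(tu)` for commuting `t, u`. -/
theorem trace_mul_quad584 (t u : Matrix (Fin 2) (Fin 2) R) (h : t * u = u * t) :
    (t * u).trace ^ 2 = t.trace * u.trace * (t * u).trace
      + (-(t.trace ^ 2 * u.det) - t.det * u.trace ^ 2 + 4 * (t.det * u.det)) := by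
  have h1 : (t * u) * (t * u) = (t * t) * (u * u) := by
    calc (t * u) * (t * u) = t * (u * t) * u := by simp only [Matrix.mul_assoc]
      _ = t * (t * u) * u := by rw [h]
      _ = (t * t) * (u * u) := by simp only [Matrix.mul_assoc]
  have h2 := trace_sq584 (t * u)
  rw [h1, sq_eq_ch584 t, sq_eq_ch584 u] at h2
  have h3 : ((t.trace • t - t.det • (1 : Matrix (Fin 2) (Fin 2) R))
        * (u.trace • u - u.det • (1 : Matrix (Fin 2) (Fin 2) R))).trace
      = t.trace * u.trace * (t * u).trace - t.trace * u.det * t.trace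
        - t.det * u.trace * u.trace + 2 * (t.det * u.det) := by
    simp only [Matrix.sub_mul, Matrix.mul_sub, Matrix.trace_sub, Matrix.trace_smul,
      Matrix.trace_one, smul_mul_assoc, mul_smul_comm, Matrix.mul_one, Matrix.one_mul,
      smul_eq_mul, Fintype.card_fin]
    push_cast
    ring
  rw [h3, Matrix.det_mul] at h2
  linear_combination -h2

end Ring

section Val

variable {k : Type} [Field k] [Valued k Γ₀]

/-- A root of `X² = a X + b` with `a`, `b` integral is integral. -/
theorem val_le_one_of_quad584 (X a b : k) (h : X ^ 2 = a * X + b) (ha : Valued.v a ≤ 1)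
    (hb : Valued.v b ≤ 1) : Valued.v X ≤ 1 := by
  by_contra hX
  rw [not_le] at hX
  have hpos : (0 : Γ₀) < Valued.v X := lt_trans zero_lt_one hX
  have h1 : Valued.v (X ^ 2) = Valued.v X * Valued.v X := by rw [sq, map_mul]
  have h3 : Valued.v (a * X) ≤ Valued.v X := by
    rw [map_mul]
    calc Valued.v a * Valued.v X ≤ 1 * Valued.v X := mul_le_mul_left ha _
      _ = Valued.v X := one_mul _
  have h4 : Valued.v X < Valued.v X * Valued.v X := by
    calc Valued.v X = Valued.v X * 1 := (mul_one _).symm
      _ < Valued.v X * Valued.v X := by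
        exact (mul_lt_mul_iff_right₀ hpos).2 hX
  rw [h] at h1
  have h5 : Valued.v X * Valued.v X ≤ Valued.v X := by
    rw [← h1]
    exact (Valued.v.map_add _ _).trans (max_le h3 (hb.trans hX.le))
  exact absurd h5 (not_le.2 h4)

theorem val_two_le_one584 : Valued.v (2 : k) ≤ 1 := by
  have : (2 : k) = 1 + 1 := by norm_num
  rw [this]
  exact (Valued.v.map_add _ _).trans (by simp)

theorem val_four_le_one584 : Valued.v (4 : k) ≤ 1 := by
  have : (4 : k) = 2 * 2 := by norm_num
  rw [this, map_mul]
  calc Valued.v (2 : k) * Valued.v (2 : k) ≤ 1 * 1 :=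
        mul_le_mul' val_two_le_one584 val_two_le_one584
    _ = 1 := one_mul _

/-- For commuting `t`, `u` with integral traces and determinants, `tr(tu)` is integral. -/
theorem val_trace_mul_le_one584 (t u : Matrix (Fin 2) (Fin 2) k) (h : t * u = u * t)
    (ht : Valued.v t.trace ≤ 1) (htd : Valued.v t.det ≤ 1)
    (hu : Valued.v u.trace ≤ 1) (hud : Valued.v u.det ≤ 1) :
    Valued.v (t * u).trace ≤ 1 := by
  refine val_le_one_of_quad584 _ _ _ (trace_mul_quad584 t u h) ?_ ?_
  · rw [map_mul]
    calc Valued.v t.trace * Valued.v u.trace ≤ 1 * 1 := mul_le_mul' ht hu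
      _ = 1 := one_mul _
  · have e1 : Valued.v (t.trace ^ 2 * u.det) ≤ 1 := by
      rw [map_mul, map_pow]
      calc Valued.v t.trace ^ 2 * Valued.v u.det ≤ 1 ^ 2 * 1 :=
            mul_le_mul' (pow_le_pow_left₀ zero_le ht 2) hud
        _ = 1 := by simp
    have e2 : Valued.v (t.det * u.trace ^ 2) ≤ 1 := by
      rw [map_mul, map_pow]
      calc Valued.v t.det * Valued.v u.trace ^ 2 ≤ 1 * 1 ^ 2 :=
            mul_le_mul' htd (pow_le_pow_left₀ zero_le hu 2)
        _ = 1 := by simp
    have e3 : Valued.v (4 * (t.det * u.det)) ≤ 1 := by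
      rw [map_mul, map_mul]
      calc Valued.v (4 : k) * (Valued.v t.det * Valued.v u.det) ≤ 1 * (1 * 1) :=
            mul_le_mul' val_four_le_one584 (mul_le_mul' htd hud)
        _ = 1 := by simp
    have e4 : Valued.v (-(t.trace ^ 2 * u.det) - t.det * u.trace ^ 2) ≤ 1 := by
      refine (Valued.v.map_sub _ _).trans (max_le ?_ e2)
      rw [Valuation.map_neg]
      exact e1
    exact (Valued.v.map_add _ _).trans (max_le e4 e3)

end Val

section Field

variable {k : Type} [Field k]

/-- `disc(γ) • X` lies in the span of `1` and `γ` if `X` commutes with `γ`. -/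
theorem smul_eq_span584 (γ X : Matrix (Fin 2) (Fin 2) k) (hX : X * γ = γ * X) :
    (γ.trace ^ 2 - 4 * γ.det) • X
      = ((γ.trace ^ 2 - 4 * γ.det) * X 0 0
          - ((X 0 0 - X 1 1) * (γ 0 0 - γ 1 1) + 2 * X 0 1 * γ 1 0 + 2 * X 1 0 * γ 0 1) * γ 0 0)
            • (1 : Matrix (Fin 2) (Fin 2) k)
        + ((X 0 0 - X 1 1) * (γ 0 0 - γ 1 1) + 2 * X 0 1 * γ 1 0 + 2 * X 1 0 * γ 0 1) • γ := by
  have R11 := congrFun (congrFun hX 0) 0
  have R12 := congrFun (congrFun hX 0) 1
  have R21 := congrFun (congrFun hX 1) 0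
  have R22 := congrFun (congrFun hX 1) 1
  simp only [Matrix.mul_apply, Fin.sum_univ_two] at R11 R12 R21 R22
  ext i j
  fin_cases i <;> fin_cases j
  · simp [Matrix.trace_fin_two, Matrix.det_fin_two]
  · simp [Matrix.trace_fin_two, Matrix.det_fin_two]
    linear_combination (-(γ 0 0 - γ 1 1)) * R12 + (2 * γ 0 1) * R11
  · simp [Matrix.trace_fin_two, Matrix.det_fin_two]
    linear_combination (γ 0 0 - γ 1 1) * R21 - (2 * γ 1 0) * R11
  · simp [Matrix.trace_fin_two, Matrix.det_fin_two]
    linear_combination (-(2 * γ 1 0)) * R12 + (2 * γ 0 1) * R21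

/-- The centraliser of a regular `2 × 2` matrix over a field is commutative. -/
theorem commute_of_reg584 (γ X Y : Matrix (Fin 2) (Fin 2) k)
    (hγ : γ.trace ^ 2 - 4 * γ.det ≠ 0) (hX : X * γ = γ * X) (hY : Y * γ = γ * Y) :
    X * Y = Y * X := by
  have hX' := smul_eq_span584 γ X hX
  have hY' := smul_eq_span584 γ Y hY
  have hc : Commute ((γ.trace ^ 2 - 4 * γ.det) • X) ((γ.trace ^ 2 - 4 * γ.det) • Y) := by
    rw [hX', hY']
    apply Commute.add_left <;> apply Commute.add_right <;>
      (apply Commute.smul_left; apply Commute.smul_right) <;>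
      first
        | exact Commute.one_left _
        | exact Commute.one_right _
        | exact Commute.refl _
  have hc' := hc.eq
  rw [smul_mul_smul_comm, smul_mul_smul_comm] at hc'
  exact smul_right_injective _ (mul_ne_zero hγ hγ) hc'

end Field

section Tw

variable {Γ : Type} [Group Γ]

theorem twN_succ584 (s : Γ →* Γ) (n : ℕ) (δ : Γ) : twN s (n + 1) δ = δ * s (twN s n δ) := rfl

theorem twN_zero584 (s : Γ →* Γ) (δ : Γ) : twN s 0 δ = 1 := rfl

/-- The twisted centraliser of `δ` commutes with the norm of `δ`, up to `sⁿ`. -/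
theorem twCent_mul_twN584 (s : Γ →* Γ) (δ x : Γ) (hx : x⁻¹ * δ * s x = δ) (n : ℕ) :
    x * twN s n δ = twN s n δ * (s^[n] x) := by
  have hx' : δ * s x = x * δ := by
    calc δ * s x = x * (x⁻¹ * δ * s x) := by group
      _ = x * δ := by rw [hx]
  induction n with
  | zero => simp [twN_zero584]
  | succ n ih =>
    rw [twN_succ584, Function.iterate_succ_apply']
    calc x * (δ * s (twN s n δ)) = (x * δ) * s (twN s n δ) := by rw [mul_assoc]
      _ = δ * s x * s (twN s n δ) := by rw [hx']
      _ = δ * s (x * twN s n δ) := by rw [map_mul, mul_assoc]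
      _ = δ * s (twN s n δ * s^[n] x) := by rw [ih]
      _ = δ * s (twN s n δ) * s (s^[n] x) := by rw [map_mul, mul_assoc]

/-- The norm of an `s`-conjugate. -/
theorem twN_conj584 (s : Γ →* Γ) (δ x : Γ) (n : ℕ) :
    twN s n (x⁻¹ * δ * s x) = x⁻¹ * twN s n δ * (s^[n] x) := by
  induction n with
  | zero => simp [twN_zero584]
  | succ n ih =>
    rw [twN_succ584, twN_succ584, ih, Function.iterate_succ_apply']
    simp only [map_mul, map_inv, mul_assoc, mul_inv_cancel_left]

end Tw

end Fermat.Agent.LT.T6.H584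

end
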