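import Mathlib
import Fermat.Agent.LT.T6.Spec
import Fermat.Agent.LT.T6.H420.ValTop
import Fermat.Agent.LT.T6.H420.GLTop

/-!
# Row LT, tower T6, leaf T6.19 `OrbSumIntC` (helper584): second countability

OFF-MAIN.  Mathlib + `LT/T6/Spec.lean` (v3) + the topology of helper420 (`H420/ValTop.lean`,
`H420/GLTop.lean`, byte-identical).  A local field in the sense of `IsLocalField` and its
`GL₂` are second countable.
-/

set_option autoImplicit false
set_option linter.unusedSectionVars false
set_option linter.style.haveILetI false

open Topology Filter Set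

noncomputable section

namespace Fermat.Agent.LT.T6.H584

open Fermat.Agent.LT.T6 Fermat.Agent.LT.T6.H420

variable {k : Type} [Field k] [Valued k Γ₀]

theorem nhds_zero_countable584 {q : ℕ} (h : IsLocalField k q) :
    (𝓝 (0 : k)).IsCountablyGenerated := by
  obtain ⟨ϖ, hϖ⟩ := h.unif
  have hb : (𝓝 (0 : k)).HasBasis (fun _ : ℕ => True)
      (fun m => {y : k | Valued.v (y - 0) ≤ WithZero.exp (-(m : ℤ))}) := by
    rw [Filter.hasBasis_iff]
    intro t
    rw [mem_nhds_iff_exp hϖ]
    simp
  exact hb.isCountablyGenerated

theorem secondCountable_field584 {q : ℕ} (h : IsLocalField k q) :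
    SecondCountableTopology k := by
  haveI : SigmaCompactSpace k := sigmaCompactSpace_of_isLocalField h
  haveI : (𝓝 (0 : k)).IsCountablyGenerated := nhds_zero_countable584 h
  haveI : (uniformity k).IsCountablyGenerated := IsUniformAddGroup.uniformity_countably_generated
  haveI : TopologicalSpace.MetrizableSpace k := UniformSpace.metrizableSpace
  letI : MetricSpace k := TopologicalSpace.metrizableSpaceMetric k
  exact EMetric.secondCountable_of_sigmaCompact k

theorem secondCountable_GL584 {q : ℕ} (h : IsLocalField k q) :
    SecondCountableTopology (GL (Fin 2) k) := by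
  haveI : SecondCountableTopology k := secondCountable_field584 h
  haveI : SecondCountableTopology (Matrix (Fin 2) (Fin 2) k) :=
    inferInstanceAs (SecondCountableTopology (Fin 2 → Fin 2 → k))
  haveI : SecondCountableTopology (Matrix (Fin 2) (Fin 2) k)ᵐᵒᵖ :=
    MulOpposite.opHomeomorph.symm.isEmbedding.secondCountableTopology
  exact Units.isEmbedding_embedProduct.secondCountableTopology

end Fermat.Agent.LT.T6.H584

end
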