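import Mathlib

/-!
# Row LT, tower T6, leaf T6.19 `OrbSumIntC` (helper584): the coset form of Weil's formula

OFF-MAIN.  Mathlib only.

`G` a second countable group with a left invariant measure `μ`, `U` an open subgroup,
`j : T →* G` a continuous homomorphism from a second countable group with a left invariant
`σ`-finite measure `μT`, `x₀ : G`, `β ≥ 0` measurable with `∫ β(j t · x) dμT(t) = 1` on `x₀ U`.
With `V = j⁻¹(x₀ U x₀⁻¹)` and `D = j(T) x₀ U`:

    μT(V) · ∫_D β dμ = μ(U)                                      (`weil_coset584`).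

No quotient measure, no unimodularity: Tonelli on `U × T`, left invariance of both measures and
the decompositions `T = ⊔ τ V`, `D = ⊔ j(τ) x₀ U` over the countable discrete set `T ⧸ V`.
-/

set_option autoImplicit false
set_option linter.style.haveILetI false
set_option linter.deprecated false

open MeasureTheory Set
open scoped ENNReal Pointwise

noncomputable section

namespace Fermat.Agent.LT.T6.H584

section Weil

variable {G : Type*} [Group G] {T : Type*} [Group T]

/-- The subgroup `V = j⁻¹(x₀ U x₀⁻¹)` of `T`. -/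
def stabV584 (j : T →* G) (U : Subgroup G) (x₀ : G) : Subgroup T where
  carrier := {t | x₀⁻¹ * j t * x₀ ∈ U}
  one_mem' := by simp
  mul_mem' := by
    intro a b ha hb
    have : x₀⁻¹ * j (a * b) * x₀ = (x₀⁻¹ * j a * x₀) * (x₀⁻¹ * j b * x₀) := by
      rw [map_mul]; group
    show x₀⁻¹ * j (a * b) * x₀ ∈ U
    rw [this]
    exact U.mul_mem ha hb
  inv_mem' := by
    intro a ha
    have : x₀⁻¹ * j a⁻¹ * x₀ = (x₀⁻¹ * j a * x₀)⁻¹ := by
      rw [map_inv]; group
    show x₀⁻¹ * j a⁻¹ * x₀ ∈ U
    rw [this]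
    exact U.inv_mem ha

theorem mem_stabV584 (j : T →* G) (U : Subgroup G) (x₀ : G) (t : T) :
    t ∈ stabV584 j U x₀ ↔ x₀⁻¹ * j t * x₀ ∈ U := Iff.rfl

theorem isOpen_stabV584 [TopologicalSpace G] [ContinuousMul G] [TopologicalSpace T]
    (j : T →* G) (hj : Continuous j) (U : Subgroup G)
    (hU : IsOpen (U : Set G)) (x₀ : G) : IsOpen (stabV584 j U x₀ : Set T) := by
  have hc : Continuous fun t : T => x₀⁻¹ * j t * x₀ := by fun_prop
  exact hU.preimage hc

/-- The coset `g U`. -/
def cosetU584 (U : Subgroup G) (g : G) : Set G := {x | g⁻¹ * x ∈ U}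

theorem isOpen_cosetU584 [TopologicalSpace G] [ContinuousMul G] (U : Subgroup G)
    (hU : IsOpen (U : Set G)) (g : G) :
    IsOpen (cosetU584 U g) := by
  have hc : Continuous fun x : G => g⁻¹ * x := by fun_prop
  exact hU.preimage hc

theorem cosetU_eq_of584 (U : Subgroup G) {g g' : G} (h : g⁻¹ * g' ∈ U) :
    cosetU584 U g' = cosetU584 U g := by
  ext x
  simp only [cosetU584, mem_setOf_eq]
  constructor
  · intro hx
    have : g⁻¹ * x = (g⁻¹ * g') * (g'⁻¹ * x) := by group
    rw [this]
    exact U.mul_mem h hx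
  · intro hx
    have : g'⁻¹ * x = (g⁻¹ * g')⁻¹ * (g⁻¹ * x) := by group
    rw [this]
    exact U.mul_mem (U.inv_mem h) hx

theorem cosetU_disjoint584 (U : Subgroup G) {g g' : G} (h : g⁻¹ * g' ∉ U) :
    Disjoint (cosetU584 U g) (cosetU584 U g') := by
  rw [Set.disjoint_left]
  intro x hx hx'
  apply h
  have : g⁻¹ * g' = (g⁻¹ * x) * (g'⁻¹ * x)⁻¹ := by group
  rw [this]
  exact U.mul_mem hx (U.inv_mem hx')

/-- Left invariance: `∫_{gU} β dμ = ∫_U β(g u) dμ(u)`. -/
theorem lintegral_cosetU584 [TopologicalSpace G] [IsTopologicalGroup G]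
    [MeasurableSpace G] [BorelSpace G] (μ : Measure G) [μ.IsMulLeftInvariant] (U : Subgroup G)
    (hU : IsOpen (U : Set G)) (g : G) (β : G → ℝ≥0∞) :
    ∫⁻ x in cosetU584 U g, β x ∂μ = ∫⁻ u in (U : Set G), β (g * u) ∂μ := by
  rw [← lintegral_indicator (isOpen_cosetU584 U hU g).measurableSet,
    ← lintegral_indicator hU.measurableSet,
    ← lintegral_mul_left_eq_self (fun x => (cosetU584 U g).indicator β x) g]
  refine lintegral_congr fun x => ?_
  by_cases hx : x ∈ (U : Set G)
  · have : g * x ∈ cosetU584 U g := by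
      show g⁻¹ * (g * x) ∈ U
      rw [inv_mul_cancel_left]; exact hx
    rw [indicator_of_mem this, indicator_of_mem hx]
  · have : g * x ∉ cosetU584 U g := by
      intro h
      apply hx
      have h' : g⁻¹ * (g * x) ∈ U := h
      rwa [inv_mul_cancel_left] at h'
    rw [indicator_of_notMem this, indicator_of_notMem hx]

/-- `T ⧸ V` is countable for an open subgroup `V` of a second countable group. -/
theorem countable_quot584 [TopologicalSpace T] [IsTopologicalGroup T]
    [SecondCountableTopology T] (V : Subgroup T) (hV : IsOpen (V : Set T)) :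
    Countable (T ⧸ V) := by
  haveI : DiscreteTopology (T ⧸ V) := QuotientGroup.discreteTopology hV
  haveI : TopologicalSpace.SeparableSpace (T ⧸ V) :=
    (QuotientGroup.mk_surjective (s := V)).denseRange.separableSpace QuotientGroup.continuous_mk
  exact TopologicalSpace.separableSpace_iff_countable.1 inferInstance

theorem out_inv_mul_mem584 (V : Subgroup T) (t : T) :
    ((QuotientGroup.mk t : T ⧸ V).out)⁻¹ * t ∈ V := by
  rw [← QuotientGroup.eq]
  exact Quotient.out_eq _

/-- The double coset `j(T) x₀ U`. -/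
def dcoset584 (j : T →* G) (U : Subgroup G) (x₀ : G) : Set G :=
  {x | ∃ t : T, ∃ u ∈ U, x = j t * x₀ * u}

theorem conj_mem_of_mem_stabV584 (j : T →* G) (U : Subgroup G) (x₀ : G) {a b : T}
    (h : a⁻¹ * b ∈ stabV584 j U x₀) : (j a * x₀)⁻¹ * (j b * x₀) ∈ U := by
  have : (j a * x₀)⁻¹ * (j b * x₀) = x₀⁻¹ * j (a⁻¹ * b) * x₀ := by
    rw [map_mul, map_inv]; group
  rw [this]
  exact h

theorem dcoset_eq_iUnion584 (j : T →* G) (U : Subgroup G) (x₀ : G) :
    dcoset584 j U x₀
      = ⋃ q : T ⧸ stabV584 j U x₀, cosetU584 U (j q.out * x₀) := by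
  ext x
  simp only [dcoset584, mem_setOf_eq, mem_iUnion, cosetU584]
  constructor
  · rintro ⟨t, u, hu, rfl⟩
    refine ⟨QuotientGroup.mk t, ?_⟩
    have h1 := conj_mem_of_mem_stabV584 j U x₀ (out_inv_mul_mem584 (stabV584 j U x₀) t)
    have : (j (QuotientGroup.mk t : T ⧸ stabV584 j U x₀).out * x₀)⁻¹ * (j t * x₀ * u)
        = ((j (QuotientGroup.mk t : T ⧸ stabV584 j U x₀).out * x₀)⁻¹ * (j t * x₀)) * u := by
      group
    rw [this]
    exact U.mul_mem h1 hu
  · rintro ⟨q, hq⟩
    exact ⟨q.out, _, hq, by group⟩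

theorem cosetU_pairwise_disjoint584 (j : T →* G) (U : Subgroup G) (x₀ : G) :
    Pairwise (Function.onFun Disjoint
      fun q : T ⧸ stabV584 j U x₀ => cosetU584 U (j q.out * x₀)) := by
  intro q q' hqq'
  apply cosetU_disjoint584
  intro h
  apply hqq'
  have h2 : (q.out)⁻¹ * q'.out ∈ stabV584 j U x₀ := by
    rw [mem_stabV584]
    have : x₀⁻¹ * j ((q.out)⁻¹ * q'.out) * x₀ = (j q.out * x₀)⁻¹ * (j q'.out * x₀) := by
      rw [map_mul, map_inv]; group
    rw [this]
    exact h
  have h3 : (QuotientGroup.mk q.out : T ⧸ stabV584 j U x₀) = QuotientGroup.mk q'.out :=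
    QuotientGroup.eq.2 h2
  rw [QuotientGroup.out_eq', QuotientGroup.out_eq'] at h3
  exact h3

/-- **Weil's formula for a double coset**, coset form. -/
theorem weil_coset584 [TopologicalSpace G] [IsTopologicalGroup G]
    [MeasurableSpace G] [BorelSpace G] [SecondCountableTopology G]
    [TopologicalSpace T] [IsTopologicalGroup T]
    [MeasurableSpace T] [BorelSpace T] [SecondCountableTopology T]
    (μ : Measure G) [μ.IsMulLeftInvariant] (μT : Measure T)
    [μT.IsMulLeftInvariant] [SigmaFinite μT] (j : T →* G) (hj : Continuous j)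
    (U : Subgroup G) (hU : IsOpen (U : Set G)) (hμU : μ (U : Set G) ≠ ⊤) (x₀ : G)
    (β : G → ℝ≥0∞) (hβ : Measurable β)
    (hint : ∀ u ∈ U, ∫⁻ t, β (j t * (x₀ * u)) ∂μT = 1) :
    μT (stabV584 j U x₀ : Set T) * ∫⁻ x in dcoset584 j U x₀, β x ∂μ = μ (U : Set G) := by
  set V := stabV584 j U x₀ with hVdef
  have hV : IsOpen (V : Set T) := isOpen_stabV584 j hj U hU x₀
  haveI : Countable (T ⧸ V) := countable_quot584 V hV
  haveI : DiscreteTopology (T ⧸ V) := QuotientGroup.discreteTopology hV
  haveI : IsFiniteMeasure (μ.restrict (U : Set G)) :=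
    ⟨by rw [Measure.restrict_apply_univ]; exact lt_top_iff_ne_top.2 hμU⟩
  -- the function `h`
  set h : T → ℝ≥0∞ := fun t => ∫⁻ x in cosetU584 U (j t * x₀), β x ∂μ with hh
  have hh' : ∀ t, h t = ∫⁻ u in (U : Set G), β (j t * (x₀ * u)) ∂μ := by
    intro t
    rw [hh]
    simp only
    rw [lintegral_cosetU584 μ U hU (j t * x₀) β]
    simp only [mul_assoc]
  -- Step A: Tonelli
  have hmeas : Measurable fun p : G × T => β (j p.2 * (x₀ * p.1)) := by
    apply hβ.comp
    have hc : Continuous fun p : G × T => j p.2 * (x₀ * p.1) := by fun_prop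
    exact hc.measurable
  have stepA : μ (U : Set G) = ∫⁻ t, h t ∂μT := by
    calc μ (U : Set G) = ∫⁻ _u in (U : Set G), 1 ∂μ := by simp
      _ = ∫⁻ u in (U : Set G), ∫⁻ t, β (j t * (x₀ * u)) ∂μT ∂μ :=
          setLIntegral_congr_fun hU.measurableSet (fun u hu => (hint u hu).symm)
      _ = ∫⁻ t, ∫⁻ u in (U : Set G), β (j t * (x₀ * u)) ∂μ ∂μT :=
          lintegral_lintegral_swap hmeas.aemeasurable
      _ = ∫⁻ t, h t ∂μT := lintegral_congr fun t => (hh' t).symm
  -- the fibres of `T → T ⧸ V`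
  set F : T ⧸ V → Set T := fun q => (QuotientGroup.mk : T → T ⧸ V) ⁻¹' {q} with hF
  have hFmeas : ∀ q, MeasurableSet (F q) := fun q =>
    ((isOpen_discrete ({q} : Set (T ⧸ V))).preimage QuotientGroup.continuous_mk).measurableSet
  have hFdisj : Pairwise (Function.onFun Disjoint F) := by
    intro q q' hqq'
    rw [Function.onFun, Set.disjoint_left]
    intro t ht ht'
    apply hqq'
    have h1 : (QuotientGroup.mk t : T ⧸ V) = q := ht
    have h2 : (QuotientGroup.mk t : T ⧸ V) = q' := ht'
    rw [← h1, ← h2]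
  have hFuniv : ⋃ q, F q = univ := by
    ext t
    simp only [mem_iUnion, mem_univ, iff_true]
    exact ⟨QuotientGroup.mk t, rfl⟩
  have hconst : ∀ q, ∀ t ∈ F q, h t = h q.out := by
    intro q t ht
    have h1 : (QuotientGroup.mk t : T ⧸ V) = q := ht
    have h2 : (q.out)⁻¹ * t ∈ V := by
      rw [← h1]
      exact out_inv_mul_mem584 V t
    rw [hh]
    simp only
    rw [cosetU_eq_of584 U (conj_mem_of_mem_stabV584 j U x₀ h2)]
  have hFmeasure : ∀ q, μT (F q) = μT (V : Set T) := by
    intro q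
    have : F q = (fun t => (q.out)⁻¹ * t) ⁻¹' (V : Set T) := by
      ext t
      simp only [hF, mem_preimage, mem_singleton_iff, SetLike.mem_coe]
      constructor
      · intro ht
        rw [← ht]
        exact out_inv_mul_mem584 V t
      · intro ht
        have h3 : (QuotientGroup.mk q.out : T ⧸ V) = QuotientGroup.mk t := QuotientGroup.eq.2 ht
        rw [QuotientGroup.out_eq'] at h3
        exact h3.symm
    rw [this, measure_preimage_mul]
  have stepD : ∫⁻ t, h t ∂μT = ∑' q : T ⧸ V, h q.out * μT (V : Set T) := by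
    have e1 : ∫⁻ t, h t ∂μT = ∫⁻ t in ⋃ q, F q, h t ∂μT := by
      rw [hFuniv, Measure.restrict_univ]
    rw [e1, lintegral_iUnion hFmeas hFdisj]
    refine tsum_congr fun q => ?_
    rw [setLIntegral_congr_fun (hFmeas q) (hconst q), setLIntegral_const, hFmeasure]
  -- Step E
  have stepE : ∫⁻ x in dcoset584 j U x₀, β x ∂μ = ∑' q : T ⧸ V, h q.out := by
    rw [dcoset_eq_iUnion584, lintegral_iUnion (fun q => (isOpen_cosetU584 U hU _).measurableSet)
      (cosetU_pairwise_disjoint584 j U x₀)]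
  rw [stepA, stepD, stepE, ENNReal.tsum_mul_right, mul_comm]

end Weil

end Fermat.Agent.LT.T6.H584

end
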