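import Mathlib
import Fermat.Agent.LT.T6.Spec
import Fermat.Agent.LT.T6.H420.ValTop
import Fermat.Agent.LT.T6.H420.GLTop
import Fermat.Agent.LT.T6.H584.WeilCoset
import Fermat.Agent.LT.T6.H584.Comm2
import Fermat.Agent.LT.T6.H584.SecCount

/-!
# Row LT, tower T6, leaf T6.19 `OrbSumIntC` (helper584, spare proof)

OFF-MAIN.  `orbSumIntC584 : T6.OrbSumIntC`, VERBATIM the Prop of `LT/T6/Spec.lean` (v3, sha256
`8c5f2ae7`, helper22@83fb5972b), with NO hypothesis.  Imports: Mathlib, the Spec, the topology of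
helper420 (`H420/ValTop.lean`, `H420/GLTop.lean`, byte-identical) and three files of this folder.

Proof (no quotient measure, no unimodularity):
1. `F(x) = φ(x⁻¹ δ s(x))` equals `φ(y)` on the open set `D_y = T x_y U` and vanishes outside the
   `D_y`, `y ∈ R`; the `D_y` are pairwise disjoint.
2. `μT(V_y) · ∫_{D_y} β dμ = μ(U) = 1`, `V_y = T ∩ x_y U x_y⁻¹` (`weil_coset584`).
3. `T^c` is the disjoint union of `cIndex y` translates of `V_y`, so `cIndex y · μT(V_y) = 1`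
   (`T` commutes with the regular element `N δ`, hence is commutative; for commuting `t, u` with
   integral characteristic polynomials `tr(tu)` is integral).
-/

set_option autoImplicit false
set_option linter.unusedSectionVars false
set_option linter.style.haveILetI false
set_option linter.deprecated false

open MeasureTheory Set
open scoped ENNReal

noncomputable section

namespace Fermat.Agent.LT.T6.H584

open Fermat.Agent.LT.T6 Fermat.Agent.LT.T6.H420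

section Local

variable {k : Type} [Field k] [Valued k Γ₀]

/-! ## The automorphism on `GL₂` -/

theorem glAut_apply584 (s : k ≃+* k) (g : GL (Fin 2) k) (i j : Fin 2) :
    ((glAut s g : GL (Fin 2) k) : Matrix (Fin 2) (Fin 2) k) i j
      = s ((g : Matrix (Fin 2) (Fin 2) k) i j) := rfl

theorem map_one_apply584 (s : k ≃+* k) (i j : Fin 2) :
    s ((1 : Matrix (Fin 2) (Fin 2) k) i j) = (1 : Matrix (Fin 2) (Fin 2) k) i j := by
  by_cases h : i = j
  · subst h; simp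
  · simp [Matrix.one_apply_ne h]

theorem inU_glAut584 (s : k ≃+* k) (hs : ∀ y : k, Valued.v (s y) = Valued.v y) (n : ℕ)
    (u : GL (Fin 2) k) (hu : InU n u) : InU n (glAut s u) := by
  intro i j
  constructor
  · rw [glAut_apply584, ← map_one_apply584 s i j, ← map_sub, hs]
    exact (hu i j).1
  · rw [← map_inv, glAut_apply584, ← map_one_apply584 s i j, ← map_sub, hs]
    exact (hu i j).2

theorem glAut_iterate584 (s : k ≃+* k) (m : ℕ) (x : GL (Fin 2) k) :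
    (glAut s)^[m] x = glAut (s ^ m) x := by
  induction m with
  | zero =>
    apply Units.ext
    ext i j
    rw [Function.iterate_zero, id, glAut_apply584, pow_zero]
    rfl
  | succ m ih =>
    rw [Function.iterate_succ_apply', ih]
    apply Units.ext
    ext i j
    rw [glAut_apply584, glAut_apply584, glAut_apply584, pow_succ']
    rfl

theorem glAut_iterate_eq584 (s : k ≃+* k) (l : ℕ) (hsl : ∀ y : k, (s ^ l) y = y)
    (x : GL (Fin 2) k) : (glAut s)^[l] x = x := by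
  rw [glAut_iterate584]
  apply Units.ext
  ext i j
  rw [glAut_apply584, hsl]

/-- The twisted centraliser of `δ` commutes with the norm of `δ`. -/
theorem twCent_commute584 (s : k ≃+* k) (l : ℕ) (hsl : ∀ y : k, (s ^ l) y = y)
    (δ x : GL (Fin 2) k) (hx : x ∈ twCentSub (glAut s) δ) :
    (x : Matrix (Fin 2) (Fin 2) k) * (twNorm s l δ : GL (Fin 2) k)
      = (twNorm s l δ : GL (Fin 2) k) * (x : Matrix (Fin 2) (Fin 2) k) := by
  have h := twCent_mul_twN584 (glAut s) δ x hx l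
  rw [glAut_iterate_eq584 s l hsl] at h
  have h' := congrArg (fun g : GL (Fin 2) k => (g : Matrix (Fin 2) (Fin 2) k)) h
  simpa [twNorm] using h'

/-- The twisted centraliser of `δ` is commutative if `N δ` is regular. -/
theorem twCent_comm584 (s : k ≃+* k) (l : ℕ) (hsl : ∀ y : k, (s ^ l) y = y)
    (δ : GL (Fin 2) k) (hreg : IsReg (twNorm s l δ)) (x y : GL (Fin 2) k)
    (hx : x ∈ twCentSub (glAut s) δ) (hy : y ∈ twCentSub (glAut s) δ) :
    (x : Matrix (Fin 2) (Fin 2) k) * (y : Matrix (Fin 2) (Fin 2) k)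
      = (y : Matrix (Fin 2) (Fin 2) k) * (x : Matrix (Fin 2) (Fin 2) k) :=
  commute_of_reg584 _ _ _ hreg.ne_zero (twCent_commute584 s l hsl δ x hx)
    (twCent_commute584 s l hsl δ y hy)

/-! ## Traces and determinants -/

theorem trace_conj584 (g x : GL (Fin 2) k) :
    ((g⁻¹ * x * g : GL (Fin 2) k) : Matrix (Fin 2) (Fin 2) k).trace
      = (x : Matrix (Fin 2) (Fin 2) k).trace := by
  rw [Units.val_mul, Units.val_mul, Matrix.trace_mul_comm, ← Matrix.mul_assoc,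
    ← Units.val_mul, mul_inv_cancel, Units.val_one, Matrix.one_mul]

theorem det_conj584 (g x : GL (Fin 2) k) :
    ((g⁻¹ * x * g : GL (Fin 2) k) : Matrix (Fin 2) (Fin 2) k).det
      = (x : Matrix (Fin 2) (Fin 2) k).det := by
  rw [Units.val_mul, Units.val_mul, Matrix.det_mul, Matrix.det_mul, mul_comm, ← mul_assoc,
    ← Matrix.det_mul, ← Units.val_mul, mul_inv_cancel, Units.val_one, Matrix.det_one, one_mul]

theorem val_entry_le_one584 (n : ℕ) (M : Matrix (Fin 2) (Fin 2) k) (hM : M ∈ matBall n)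
    (i j : Fin 2) : Valued.v (M i j) ≤ 1 := by
  have h1 : M i j = (M i j - (1 : Matrix (Fin 2) (Fin 2) k) i j)
      + (1 : Matrix (Fin 2) (Fin 2) k) i j := by ring
  rw [h1]
  refine (Valued.v.map_add _ _).trans (max_le ((hM i j).trans (exp_neg_nat_le_one n)) ?_)
  by_cases h : i = j
  · subst h; simp
  · simp [Matrix.one_apply_ne h]

theorem val_trace_le_one584 (n : ℕ) (M : Matrix (Fin 2) (Fin 2) k) (hM : M ∈ matBall n) :
    Valued.v M.trace ≤ 1 := by
  rw [Matrix.trace_fin_two]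
  exact (Valued.v.map_add _ _).trans
    (max_le (val_entry_le_one584 n M hM 0 0) (val_entry_le_one584 n M hM 1 1))

theorem val_det_le_one584 (n : ℕ) (M : Matrix (Fin 2) (Fin 2) k) (hM : M ∈ matBall n) :
    Valued.v M.det ≤ 1 := by
  rw [Matrix.det_fin_two]
  refine (Valued.v.map_sub _ _).trans (max_le ?_ ?_)
  · rw [map_mul]
    calc Valued.v (M 0 0) * Valued.v (M 1 1) ≤ 1 * 1 :=
          mul_le_mul' (val_entry_le_one584 n M hM 0 0) (val_entry_le_one584 n M hM 1 1)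
      _ = 1 := one_mul _
  · rw [map_mul]
    calc Valued.v (M 0 1) * Valued.v (M 1 0) ≤ 1 * 1 :=
          mul_le_mul' (val_entry_le_one584 n M hM 0 1) (val_entry_le_one584 n M hM 1 0)
      _ = 1 := one_mul _

theorem inU_trace_det584 (n : ℕ) (u : GL (Fin 2) k) (hu : InU n u) :
    Valued.v (u : Matrix (Fin 2) (Fin 2) k).trace ≤ 1 ∧
      Valued.v (u : Matrix (Fin 2) (Fin 2) k).det = 1 := by
  obtain ⟨h1, h2⟩ := (inU_iff n u).1 hu
  refine ⟨val_trace_le_one584 n _ h1, le_antisymm (val_det_le_one584 n _ h1) ?_⟩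
  have hd : (u : Matrix (Fin 2) (Fin 2) k).det
      * ((u⁻¹ : GL (Fin 2) k) : Matrix (Fin 2) (Fin 2) k).det = 1 := by
    rw [← Matrix.det_mul, ← Units.val_mul, mul_inv_cancel, Units.val_one, Matrix.det_one]
  have hv := congrArg Valued.v hd
  rw [map_mul, map_one] at hv
  calc (1 : Γ₀) = Valued.v (u : Matrix (Fin 2) (Fin 2) k).det
        * Valued.v ((u⁻¹ : GL (Fin 2) k) : Matrix (Fin 2) (Fin 2) k).det := hv.symm
    _ ≤ Valued.v (u : Matrix (Fin 2) (Fin 2) k).det * 1 :=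
        mul_le_mul_right (val_det_le_one584 n _ h2) _
    _ = Valued.v (u : Matrix (Fin 2) (Fin 2) k).det := mul_one _

end Local

/-! ## Twisted conjugation in a group -/

section Grp

variable {Γ : Type} [Group Γ]

theorem mem_twCentSub584 (s' : Γ →* Γ) (δ x : Γ) :
    x ∈ twCentSub s' δ ↔ x⁻¹ * δ * s' x = δ := Iff.rfl

theorem tw_conj_mem584 (s' : Γ →* Γ) (δ x₀ t : Γ)
    (h : t⁻¹ * (x₀⁻¹ * δ * s' x₀) * s' t = x₀⁻¹ * δ * s' x₀) :
    x₀ * t * x₀⁻¹ ∈ twCentSub s' δ := by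
  rw [mem_twCentSub584]
  simp only [map_mul, map_inv, mul_inv_rev, inv_inv]
  calc x₀ * (t⁻¹ * x₀⁻¹) * δ * (s' x₀ * s' t * (s' x₀)⁻¹)
      = x₀ * (t⁻¹ * (x₀⁻¹ * δ * s' x₀) * s' t) * (s' x₀)⁻¹ := by group
    _ = x₀ * (x₀⁻¹ * δ * s' x₀) * (s' x₀)⁻¹ := by rw [h]
    _ = δ := by group

theorem tw_conj_inv584 (s' : Γ →* Γ) (δ x₀ t : Γ) (ht : t ∈ twCentSub s' δ) :
    (x₀⁻¹ * t * x₀)⁻¹ * (x₀⁻¹ * δ * s' x₀) * s' (x₀⁻¹ * t * x₀) = x₀⁻¹ * δ * s' x₀ := by
  rw [mem_twCentSub584] at ht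
  simp only [map_mul, map_inv, mul_inv_rev, inv_inv]
  calc x₀⁻¹ * (t⁻¹ * x₀) * (x₀⁻¹ * δ * s' x₀) * ((s' x₀)⁻¹ * s' t * s' x₀)
      = x₀⁻¹ * (t⁻¹ * δ * s' t) * s' x₀ := by group
    _ = x₀⁻¹ * δ * s' x₀ := by rw [ht]

theorem tw_of_dcoset584 (s' : Γ →* Γ) (δ x₀ t u : Γ) (ht : t ∈ twCentSub s' δ) :
    (t * x₀ * u)⁻¹ * δ * s' (t * x₀ * u) = u⁻¹ * (x₀⁻¹ * δ * s' x₀) * s' u := by
  rw [mem_twCentSub584] at ht
  simp only [map_mul, mul_inv_rev]
  calc u⁻¹ * (x₀⁻¹ * t⁻¹) * δ * (s' t * s' x₀ * s' u)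
      = u⁻¹ * x₀⁻¹ * (t⁻¹ * δ * s' t) * s' x₀ * s' u := by group
    _ = u⁻¹ * (x₀⁻¹ * δ * s' x₀) * s' u := by rw [ht]; group

theorem mem_twCent_of_eq584 (s' : Γ →* Γ) (δ x z : Γ)
    (h : x⁻¹ * δ * s' x = z⁻¹ * δ * s' z) : x * z⁻¹ ∈ twCentSub s' δ := by
  rw [mem_twCentSub584]
  simp only [map_mul, map_inv, mul_inv_rev, inv_inv]
  calc z * x⁻¹ * δ * (s' x * (s' z)⁻¹) = z * (x⁻¹ * δ * s' x) * (s' z)⁻¹ := by group
    _ = z * (z⁻¹ * δ * s' z) * (s' z)⁻¹ := by rw [h]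
    _ = δ := by group

end Grp

/-! ## The two measure identities -/

section Core

variable {k : Type} [Field k] [Valued k Γ₀]
  [MeasurableSpace (GL (Fin 2) k)] [BorelSpace (GL (Fin 2) k)]

theorem spec_coset_eq584 (n : ℕ) (t : GL (Fin 2) k) :
    {g : GL (Fin 2) k | ∃ u, InU n u ∧ g = t * u} = cosetU584 (subU n) t := by
  ext g
  simp only [mem_setOf_eq, cosetU584, mem_subU_iff]
  constructor
  · rintro ⟨u, hu, rfl⟩
    rwa [inv_mul_cancel_left]
  · intro h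
    exact ⟨t⁻¹ * g, h, by group⟩

theorem isClosed_twCent584 {q : ℕ} (hk : IsLocalField k q) (s : k ≃+* k)
    (hs : ∀ y : k, Valued.v (s y) = Valued.v y) (δ : GL (Fin 2) k)
    (T : Subgroup (GL (Fin 2) k)) (hT : ∀ x, x ∈ T ↔ x⁻¹ * δ * glAut s x = δ) :
    IsClosed (T : Set (GL (Fin 2) k)) := by
  have hc : Continuous (glAut s) := continuous_glAut hk s hs
  have hc' : Continuous fun x : GL (Fin 2) k => x⁻¹ * δ * glAut s x := by fun_prop
  have : (T : Set (GL (Fin 2) k)) = {x | x⁻¹ * δ * glAut s x = δ} := by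
    ext x
    exact hT x
  rw [this]
  exact isClosed_eq hc' continuous_const

/-- `μT(V) · ∫_{T x₀ U} β dμ = 1`. -/
theorem lint_dcoset584 {q : ℕ} (hk : IsLocalField k q) (s : k ≃+* k)
    (hs : ∀ y : k, Valued.v (s y) = Valued.v y) (n : ℕ) (δ : GL (Fin 2) k)
    (μ : Measure (GL (Fin 2) k)) [μ.IsHaarMeasure] (hμU : μ {g | InU n g} = 1)
    (T : Subgroup (GL (Fin 2) k)) (hT : ∀ x, x ∈ T ↔ x⁻¹ * δ * glAut s x = δ)
    [MeasurableSpace T] [BorelSpace T] (μT : Measure T) [μT.IsHaarMeasure]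
    (β : GL (Fin 2) k → ℝ) (hβc : Continuous β) (hβ0 : ∀ x, 0 ≤ β x)
    (hβint : ∀ x : GL (Fin 2) k, ∫ t : T, β ((t : GL (Fin 2) k) * x) ∂μT = 1)
    (x₀ : GL (Fin 2) k) :
    μT (stabV584 T.subtype (subU n) x₀ : Set T)
      * ∫⁻ x in dcoset584 T.subtype (subU n) x₀, ENNReal.ofReal (β x) ∂μ = 1 := by
  haveI : SecondCountableTopology (GL (Fin 2) k) := secondCountable_GL584 hk
  haveI : SecondCountableTopology T := Topology.IsInducing.subtypeVal.secondCountableTopology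
  haveI : SigmaCompactSpace (GL (Fin 2) k) := sigmaCompactSpace_GL hk
  haveI : SigmaCompactSpace T :=
    (isClosed_twCent584 hk s hs δ T hT).isClosedEmbedding_subtypeVal.sigmaCompactSpace
  obtain ⟨ϖ, hϖ⟩ := hk.unif
  have hU := isOpen_subU (k := k) hϖ n
  have hμU' : μ ((subU n : Subgroup (GL (Fin 2) k)) : Set (GL (Fin 2) k)) = 1 := hμU
  have hint : ∀ u ∈ subU (k := k) n,
      ∫⁻ t : T, ENNReal.ofReal (β (T.subtype t * (x₀ * u))) ∂μT = 1 := by
    intro u _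
    have hI : Integrable (fun t : T => β ((t : GL (Fin 2) k) * (x₀ * u))) μT := by
      by_contra h
      have := integral_undef h
      rw [hβint] at this
      exact one_ne_zero this
    have := ofReal_integral_eq_lintegral_ofReal hI (ae_of_all _ fun t => hβ0 _)
    rw [hβint, ENNReal.ofReal_one] at this
    exact this.symm
  have := weil_coset584 μ μT T.subtype continuous_subtype_val (subU n) hU
    (by rw [hμU']; exact ENNReal.one_ne_top) x₀ (fun x => ENNReal.ofReal (β x))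
    hβc.measurable.ennreal_ofReal hint
  rw [this, hμU']

/-- `cIndex(y) · μT(V) = 1`. -/
theorem index_mul584 {q : ℕ} (hk : IsLocalField k q) (l : ℕ) (s : k ≃+* k)
    (_hs : ∀ y : k, Valued.v (s y) = Valued.v y) (hsl : ∀ y : k, (s ^ l) y = y)
    (n : ℕ) (δ : GL (Fin 2) k) (hreg : IsReg (twNorm s l δ))
    (T : Subgroup (GL (Fin 2) k)) (hT : ∀ x, x ∈ T ↔ x⁻¹ * δ * glAut s x = δ)
    [MeasurableSpace T] [BorelSpace T] (μT : Measure T) [μT.IsHaarMeasure]
    (hμTc : μT {t | Valued.v ((t : GL (Fin 2) k) : Matrix (Fin 2) (Fin 2) k).trace ≤ 1 ∧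
        Valued.v ((t : GL (Fin 2) k) : Matrix (Fin 2) (Fin 2) k).det = 1} = 1)
    (x₀ : GL (Fin 2) k) :
    (cIndex (InU n) (InTwCentC s) (x₀⁻¹ * δ * glAut s x₀) : ℝ≥0∞)
      * μT (stabV584 T.subtype (subU n) x₀ : Set T) = 1 := by
  classical
  obtain ⟨ϖ, hϖ⟩ := hk.unif
  have hUo := isOpen_subU (k := k) hϖ n
  have hT' : ∀ x, x ∈ T ↔ x ∈ twCentSub (glAut s) δ := hT
  set y := x₀⁻¹ * δ * glAut s x₀ with hy
  set V := stabV584 T.subtype (subU n) x₀ with hV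
  set 𝒞 : Set (Set (GL (Fin 2) k)) :=
    {c | ∃ t, InTwCentC s y t ∧ c = {g | ∃ u, InU n u ∧ g = t * u}} with h𝒞
  have hcI : cIndex (InU n) (InTwCentC s) y = 𝒞.ncard := rfl
  set A : Set (GL (Fin 2) k) → Set T :=
    fun c => {t : T | x₀⁻¹ * (t : GL (Fin 2) k) * x₀ ∈ c} with hA
  set Tc : Set T := {t | Valued.v ((t : GL (Fin 2) k) : Matrix (Fin 2) (Fin 2) k).trace ≤ 1 ∧
        Valued.v ((t : GL (Fin 2) k) : Matrix (Fin 2) (Fin 2) k).det = 1} with hTc
  have hconj : Continuous fun t : T => x₀⁻¹ * (t : GL (Fin 2) k) * x₀ := by fun_prop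
  have hVopen : IsOpen (V : Set T) :=
    isOpen_stabV584 T.subtype continuous_subtype_val (subU n) hUo x₀
  have hm0 : μT (V : Set T) ≠ 0 := (hVopen.measure_pos μT ⟨1, V.one_mem⟩).ne'
  -- (a)
  have hAmeasure : ∀ c ∈ 𝒞, μT (A c) = μT (V : Set T) := by
    rintro c ⟨tc, htc, rfl⟩
    have hτ : x₀ * tc * x₀⁻¹ ∈ T := (hT' _).2 (tw_conj_mem584 _ _ _ _ htc.1)
    have : A {g | ∃ u, InU n u ∧ g = tc * u}
        = (fun t : T => (⟨x₀ * tc * x₀⁻¹, hτ⟩ : T)⁻¹ * t) ⁻¹' (V : Set T) := by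
      ext t
      have e : x₀⁻¹ * T.subtype ((⟨x₀ * tc * x₀⁻¹, hτ⟩ : T)⁻¹ * t) * x₀
          = tc⁻¹ * (x₀⁻¹ * (t : GL (Fin 2) k) * x₀) := by
        show x₀⁻¹ * ((x₀ * tc * x₀⁻¹)⁻¹ * (t : GL (Fin 2) k)) * x₀ = _
        group
      constructor
      · rintro ⟨u, hu, hg⟩
        show x₀⁻¹ * T.subtype ((⟨x₀ * tc * x₀⁻¹, hτ⟩ : T)⁻¹ * t) * x₀ ∈ subU n
        rw [e, hg, inv_mul_cancel_left]
        exact hu
      · intro h
        have h' : x₀⁻¹ * T.subtype ((⟨x₀ * tc * x₀⁻¹, hτ⟩ : T)⁻¹ * t) * x₀ ∈ subU n := h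
        rw [e] at h'
        exact ⟨tc⁻¹ * (x₀⁻¹ * (t : GL (Fin 2) k) * x₀), h', by group⟩
    rw [this, measure_preimage_mul]
  -- (d)
  have hAmeas : ∀ c ∈ 𝒞, MeasurableSet (A c) := by
    rintro c ⟨tc, htc, rfl⟩
    have : A {g | ∃ u, InU n u ∧ g = tc * u}
        = (fun t : T => x₀⁻¹ * (t : GL (Fin 2) k) * x₀) ⁻¹' (cosetU584 (subU n) tc) := by
      rw [← spec_coset_eq584]
      rfl
    rw [this]
    exact ((isOpen_cosetU584 (subU n) hUo tc).preimage hconj).measurableSet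
  -- (b)
  have hAdisj : ∀ c ∈ 𝒞, ∀ c' ∈ 𝒞, c ≠ c' → Disjoint (A c) (A c') := by
    rintro c ⟨tc, htc, rfl⟩ c' ⟨tc', htc', rfl⟩ hne
    rw [Set.disjoint_left]
    intro t ht ht'
    apply hne
    rw [spec_coset_eq584, spec_coset_eq584]
    have ht1 : x₀⁻¹ * (t : GL (Fin 2) k) * x₀ ∈ {g | ∃ u, InU n u ∧ g = tc * u} := ht
    have ht2 : x₀⁻¹ * (t : GL (Fin 2) k) * x₀ ∈ {g | ∃ u, InU n u ∧ g = tc' * u} := ht'
    rw [spec_coset_eq584] at ht1 ht2
    have h1 : tc⁻¹ * (x₀⁻¹ * (t : GL (Fin 2) k) * x₀) ∈ subU n := ht1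
    have h2 : tc'⁻¹ * (x₀⁻¹ * (t : GL (Fin 2) k) * x₀) ∈ subU n := ht2
    refine (cosetU_eq_of584 (subU n) ?_).symm
    have : tc⁻¹ * tc' = (tc⁻¹ * (x₀⁻¹ * (t : GL (Fin 2) k) * x₀))
        * (tc'⁻¹ * (x₀⁻¹ * (t : GL (Fin 2) k) * x₀))⁻¹ := by group
    rw [this]
    exact (subU n).mul_mem h1 ((subU n).inv_mem h2)
  -- (c)
  have hAunion : ⋃ c ∈ 𝒞, A c = Tc := by
    ext t
    simp only [mem_iUnion, exists_prop]
    constructor
    · rintro ⟨c, ⟨tc, htc, rfl⟩, u, hu, hg⟩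
      have hτ : x₀ * tc * x₀⁻¹ ∈ twCentSub (glAut s) δ := tw_conj_mem584 _ _ _ _ htc.1
      have ht' : (t : GL (Fin 2) k) = x₀ * (tc * u) * x₀⁻¹ := by rw [← hg]; group
      have hw : x₀ * u * x₀⁻¹ ∈ twCentSub (glAut s) δ := by
        have : x₀ * u * x₀⁻¹ = (x₀ * tc * x₀⁻¹)⁻¹ * (t : GL (Fin 2) k) := by
          rw [ht']; group
        rw [this]
        exact (twCentSub (glAut s) δ).mul_mem ((twCentSub (glAut s) δ).inv_mem hτ)
          ((hT' _).1 t.2)
      have hcomm := twCent_comm584 s l hsl δ hreg _ _ hτ hw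
      have htw : (t : GL (Fin 2) k) = (x₀ * tc * x₀⁻¹) * (x₀ * u * x₀⁻¹) := by
        rw [ht']; group
      have e1 : ((x₀ * tc * x₀⁻¹ : GL (Fin 2) k) : Matrix (Fin 2) (Fin 2) k).trace
          = (tc : Matrix (Fin 2) (Fin 2) k).trace := by
        have := trace_conj584 x₀⁻¹ tc
        rwa [inv_inv] at this
      have e2 : ((x₀ * tc * x₀⁻¹ : GL (Fin 2) k) : Matrix (Fin 2) (Fin 2) k).det
          = (tc : Matrix (Fin 2) (Fin 2) k).det := by
        have := det_conj584 x₀⁻¹ tc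
        rwa [inv_inv] at this
      have e3 : ((x₀ * u * x₀⁻¹ : GL (Fin 2) k) : Matrix (Fin 2) (Fin 2) k).trace
          = (u : Matrix (Fin 2) (Fin 2) k).trace := by
        have := trace_conj584 x₀⁻¹ u
        rwa [inv_inv] at this
      have e4 : ((x₀ * u * x₀⁻¹ : GL (Fin 2) k) : Matrix (Fin 2) (Fin 2) k).det
          = (u : Matrix (Fin 2) (Fin 2) k).det := by
        have := det_conj584 x₀⁻¹ u
        rwa [inv_inv] at this
      obtain ⟨hut, hud⟩ := inU_trace_det584 n u hu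
      obtain ⟨-, htct, htcd⟩ := htc
      show Valued.v ((t : GL (Fin 2) k) : Matrix (Fin 2) (Fin 2) k).trace ≤ 1 ∧
        Valued.v ((t : GL (Fin 2) k) : Matrix (Fin 2) (Fin 2) k).det = 1
      rw [htw, Units.val_mul]
      constructor
      · refine val_trace_mul_le_one584 _ _ hcomm ?_ ?_ ?_ ?_
        · rw [e1]; exact htct
        · rw [e2]; exact htcd.le
        · rw [e3]; exact hut
        · rw [e4]; exact hud.le
      · rw [Matrix.det_mul, map_mul, e2, e4, htcd, hud, one_mul]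
    · intro ht
      refine ⟨{g | ∃ u, InU n u ∧ g = (x₀⁻¹ * (t : GL (Fin 2) k) * x₀) * u},
        ⟨x₀⁻¹ * (t : GL (Fin 2) k) * x₀,
          ⟨tw_conj_inv584 _ _ _ _ ((hT' _).1 t.2), ?_, ?_⟩, rfl⟩,
        ⟨1, (subU n).one_mem, by simp⟩⟩
      · rw [trace_conj584]; exact ht.1
      · rw [det_conj584]; exact ht.2
  -- finite unions
  have hsum : ∀ S : Finset (Set (GL (Fin 2) k)), (↑S : Set (Set (GL (Fin 2) k))) ⊆ 𝒞 →
      μT (⋃ c ∈ S, A c) = (S.card : ℝ≥0∞) * μT (V : Set T) := by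
    intro S hS
    rw [measure_biUnion_finset
      (fun c hc c' hc' hne => hAdisj c (hS hc) c' (hS hc') hne)
      (fun c hc => hAmeas c (hS hc)),
      Finset.sum_congr rfl (fun c hc => hAmeasure c (hS (Finset.mem_coe.2 hc))),
      Finset.sum_const, nsmul_eq_mul]
  have hbound : ∀ S : Finset (Set (GL (Fin 2) k)), (↑S : Set (Set (GL (Fin 2) k))) ⊆ 𝒞 →
      (S.card : ℝ≥0∞) * μT (V : Set T) ≤ 1 := by
    intro S hS
    rw [← hsum S hS, ← hμTc]
    apply measure_mono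
    rw [← hAunion]
    intro t ht
    simp only [mem_iUnion, exists_prop] at ht ⊢
    obtain ⟨c, hc, htc⟩ := ht
    exact ⟨c, hS (Finset.mem_coe.2 hc), htc⟩
  have hfin : 𝒞.Finite := by
    by_contra hinf
    obtain ⟨N, hN⟩ := ENNReal.exists_nat_mul_gt hm0 ENNReal.one_ne_top
    obtain ⟨S, hS, hcard⟩ := Set.Infinite.exists_subset_card_eq hinf N
    have := hbound S hS
    rw [hcard] at this
    exact absurd this (not_le.2 hN)
  have h1 := hsum hfin.toFinset (by rw [hfin.coe_toFinset])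
  have h2 : ⋃ c ∈ hfin.toFinset, A c = Tc := by
    rw [← hAunion]
    ext t
    simp only [mem_iUnion, exists_prop, Set.Finite.mem_toFinset]
  rw [h2, hμTc] at h1
  rw [hcI, Set.ncard_eq_toFinset_card 𝒞 hfin]
  exact h1.symm

/-- `∫_{T x₀ U} β dμ = cIndex(y)` (with integrability). -/
theorem integral_dcoset584 {q : ℕ} (hk : IsLocalField k q) (l : ℕ) (s : k ≃+* k)
    (hs : ∀ y : k, Valued.v (s y) = Valued.v y) (hsl : ∀ y : k, (s ^ l) y = y)
    (n : ℕ) (δ : GL (Fin 2) k) (hreg : IsReg (twNorm s l δ))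
    (μ : Measure (GL (Fin 2) k)) [μ.IsHaarMeasure] (hμU : μ {g | InU n g} = 1)
    (T : Subgroup (GL (Fin 2) k)) (hT : ∀ x, x ∈ T ↔ x⁻¹ * δ * glAut s x = δ)
    [MeasurableSpace T] [BorelSpace T] (μT : Measure T) [μT.IsHaarMeasure]
    (hμTc : μT {t | Valued.v ((t : GL (Fin 2) k) : Matrix (Fin 2) (Fin 2) k).trace ≤ 1 ∧
        Valued.v ((t : GL (Fin 2) k) : Matrix (Fin 2) (Fin 2) k).det = 1} = 1)
    (β : GL (Fin 2) k → ℝ) (hβc : Continuous β) (hβ0 : ∀ x, 0 ≤ β x)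
    (hβint : ∀ x : GL (Fin 2) k, ∫ t : T, β ((t : GL (Fin 2) k) * x) ∂μT = 1)
    (x₀ : GL (Fin 2) k) :
    IntegrableOn β (dcoset584 T.subtype (subU n) x₀) μ ∧
      ∫ x in dcoset584 T.subtype (subU n) x₀, β x ∂μ
        = (cIndex (InU n) (InTwCentC s) (x₀⁻¹ * δ * glAut s x₀) : ℝ) := by
  have h1 := lint_dcoset584 hk s hs n δ μ hμU T hT μT β hβc hβ0 hβint x₀
  have h2 := index_mul584 hk l s hs hsl n δ hreg T hT μT hμTc x₀
  have h3 : ∫⁻ x in dcoset584 T.subtype (subU n) x₀, ENNReal.ofReal (β x) ∂μ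
      = (cIndex (InU n) (InTwCentC s) (x₀⁻¹ * δ * glAut s x₀) : ℝ≥0∞) := by
    calc ∫⁻ x in dcoset584 T.subtype (subU n) x₀, ENNReal.ofReal (β x) ∂μ
        = ((cIndex (InU n) (InTwCentC s) (x₀⁻¹ * δ * glAut s x₀) : ℝ≥0∞)
            * μT (stabV584 T.subtype (subU n) x₀ : Set T))
          * ∫⁻ x in dcoset584 T.subtype (subU n) x₀, ENNReal.ofReal (β x) ∂μ := by
          rw [h2, one_mul]
      _ = (cIndex (InU n) (InTwCentC s) (x₀⁻¹ * δ * glAut s x₀) : ℝ≥0∞) := by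
          rw [mul_assoc, h1, mul_one]
  have hsm : AEStronglyMeasurable β (μ.restrict (dcoset584 T.subtype (subU n) x₀)) :=
    hβc.aestronglyMeasurable
  have hnn : 0 ≤ᵐ[μ.restrict (dcoset584 T.subtype (subU n) x₀)] β :=
    ae_of_all _ hβ0
  refine ⟨⟨hsm, ?_⟩, ?_⟩
  · rw [hasFiniteIntegral_iff_ofReal hnn, h3]
    exact ENNReal.natCast_lt_top _
  · rw [integral_eq_lintegral_of_nonneg_ae hnn hsm, h3, ENNReal.toReal_natCast]

/-- **T6.19, core form** (instances as arguments). -/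
theorem orbSumInt_core584 {q : ℕ} (hk : IsLocalField k q) (l : ℕ) (s : k ≃+* k)
    (hs : ∀ y : k, Valued.v (s y) = Valued.v y) (hsl : ∀ y : k, (s ^ l) y = y)
    (n : ℕ) (φ : GL (Fin 2) k → ℂ) (hφ : IsBiInv (InU n) φ)
    (δ : GL (Fin 2) k) (c : ℂ) (hreg : IsReg (twNorm s l δ)) (horb : IsTwOrbSum s n φ δ c)
    (μ : Measure (GL (Fin 2) k)) [μ.IsHaarMeasure] (hμU : μ {g | InU n g} = 1)
    (T : Subgroup (GL (Fin 2) k)) (hT : ∀ x, x ∈ T ↔ x⁻¹ * δ * glAut s x = δ)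
    [MeasurableSpace T] [BorelSpace T] (μT : Measure T) [μT.IsHaarMeasure]
    (hμTc : μT {t | Valued.v ((t : GL (Fin 2) k) : Matrix (Fin 2) (Fin 2) k).trace ≤ 1 ∧
        Valued.v ((t : GL (Fin 2) k) : Matrix (Fin 2) (Fin 2) k).det = 1} = 1)
    (β : GL (Fin 2) k → ℝ) (hβc : Continuous β) (hβ0 : ∀ x, 0 ≤ β x)
    (hβint : ∀ x : GL (Fin 2) k, ∫ t : T, β ((t : GL (Fin 2) k) * x) ∂μT = 1) :
    ∫ x, φ (x⁻¹ * δ * glAut s x) * (β x : ℂ) ∂μ = c := by
  classical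
  obtain ⟨ϖ, hϖ⟩ := hk.unif
  have hUo := isOpen_subU (k := k) hϖ n
  have hT' : ∀ x, x ∈ T ↔ x ∈ twCentSub (glAut s) δ := hT
  obtain ⟨R, hR1, hR2, hR3, hc⟩ := horb
  choose! xr hxr using hR1
  -- the double cosets
  set D : GL (Fin 2) k → Set (GL (Fin 2) k) :=
    fun y => dcoset584 T.subtype (subU n) (xr y) with hD
  have hDopen : ∀ y, IsOpen (D y) := by
    intro y
    rw [hD]
    simp only
    rw [dcoset_eq_iUnion584]
    exact isOpen_iUnion fun q => isOpen_cosetU584 (subU n) hUo _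
  -- the value of the twisted conjugate on `D y`
  have hDtw : ∀ y ∈ R, ∀ x ∈ D y, ∃ u, InU n u ∧ x⁻¹ * δ * glAut s x = u⁻¹ * y * glAut s u := by
    intro y hy x hx
    obtain ⟨t, u, hu, rfl⟩ := hx
    refine ⟨u, hu, ?_⟩
    have := tw_of_dcoset584 (glAut s) δ (xr y) (t : GL (Fin 2) k) u ((hT' _).1 t.2)
    rw [← hxr y hy] at this
    exact this
  have hDφ : ∀ y ∈ R, ∀ x ∈ D y, φ (x⁻¹ * δ * glAut s x) = φ y := by
    intro y hy x hx
    obtain ⟨u, hu, hxu⟩ := hDtw y hy x hx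
    rw [hxu]
    exact hφ u⁻¹ (glAut s u) y ((subU n).inv_mem hu) (inU_glAut584 s hs n u hu)
  have hDdisj : ∀ y ∈ R, ∀ y' ∈ R, y ≠ y' → Disjoint (D y) (D y') := by
    intro y hy y' hy' hne
    rw [Set.disjoint_left]
    intro x hx hx'
    apply hne
    obtain ⟨u, hu, hxu⟩ := hDtw y hy x hx
    obtain ⟨u', hu', hxu'⟩ := hDtw y' hy' x hx'
    refine hR2 y hy y' hy' ⟨u * u'⁻¹, (subU n).mul_mem hu ((subU n).inv_mem hu'), ?_⟩
    have e : u⁻¹ * y * glAut s u = u'⁻¹ * y' * glAut s u' := by rw [← hxu, ← hxu']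
    have e' : y' = u' * (u⁻¹ * y * glAut s u) * (glAut s u')⁻¹ := by
      rw [e]; group
    rw [e']
    simp only [map_mul, map_inv, mul_inv_rev, inv_inv]
    group
  have hzero : ∀ x, (∀ y ∈ R, x ∉ D y) → φ (x⁻¹ * δ * glAut s x) = 0 := by
    intro x hx
    by_contra hne
    obtain ⟨y', hy', u, hu, hxu⟩ := hR3 (x⁻¹ * δ * glAut s x) ⟨x, rfl⟩ hne
    apply hx y' hy'
    have hz : x⁻¹ * δ * glAut s x
        = (xr y' * u)⁻¹ * δ * glAut s (xr y' * u) := by
      rw [hxu]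
      conv_lhs => rw [hxr y' hy']
      simp only [map_mul, mul_inv_rev]
      group
    have ht : x * (xr y' * u)⁻¹ ∈ T := (hT' _).2 (mem_twCent_of_eq584 _ _ _ _ hz)
    exact ⟨⟨x * (xr y' * u)⁻¹, ht⟩, u, hu, by
      show x = x * (xr y' * u)⁻¹ * xr y' * u
      group⟩
  -- the integrals over the double cosets
  have hint : ∀ y ∈ R, IntegrableOn β (D y) μ ∧
      ∫ x in D y, β x ∂μ = (cIndex (InU n) (InTwCentC s) y : ℝ) := by
    intro y hy
    have := integral_dcoset584 hk l s hs hsl n δ hreg μ hμU T hT μT hμTc β hβc hβ0 hβint (xr y)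
    rw [← hxr y hy] at this
    exact this
  -- pointwise decomposition
  have hpt : ∀ x, φ (x⁻¹ * δ * glAut s x) * (β x : ℂ)
      = ∑ y ∈ R, (D y).indicator (fun x => φ y * (β x : ℂ)) x := by
    intro x
    by_cases hx : ∃ y ∈ R, x ∈ D y
    · obtain ⟨y₀, hy₀, hxy₀⟩ := hx
      rw [Finset.sum_eq_single y₀]
      · rw [indicator_of_mem hxy₀, hDφ y₀ hy₀ x hxy₀]
      · intro y hy hne
        have : x ∉ D y := fun h =>
          (Set.disjoint_left.1 (hDdisj y hy y₀ hy₀ hne)) h hxy₀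
        exact indicator_of_notMem this _
      · intro h
        exact absurd hy₀ h
    · push Not at hx
      rw [hzero x hx, zero_mul]
      symm
      apply Finset.sum_eq_zero
      intro y hy
      exact indicator_of_notMem (hx y hy) _
  have hI : ∀ y ∈ R, Integrable ((D y).indicator (fun x => φ y * (β x : ℂ))) μ := by
    intro y hy
    rw [integrable_indicator_iff (hDopen y).measurableSet]
    exact ((hint y hy).1.ofReal (𝕜 := ℂ)).const_mul (φ y)
  calc ∫ x, φ (x⁻¹ * δ * glAut s x) * (β x : ℂ) ∂μ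
      = ∫ x, ∑ y ∈ R, (D y).indicator (fun x => φ y * (β x : ℂ)) x ∂μ :=
        integral_congr_ae (ae_of_all _ hpt)
    _ = ∑ y ∈ R, ∫ x, (D y).indicator (fun x => φ y * (β x : ℂ)) x ∂μ :=
        integral_finset_sum R hI
    _ = ∑ y ∈ R, φ y * (cIndex (InU n) (InTwCentC s) y : ℂ) := by
        refine Finset.sum_congr rfl fun y hy => ?_
        rw [integral_indicator (hDopen y).measurableSet, integral_const_mul,
          integral_complex_ofReal, (hint y hy).2]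
        simp
    _ = c := hc.symm

end Core

/-- **T6.19 `OrbSumIntC`**: the orbit sum is the orbital integral. -/
theorem orbSumIntC584 : OrbSumIntC := by
  intro k _ _ q l s hk hs _ hsl n φ hφ _ δ c hreg horb μ hμ hμU μT hμT hμTc β hβc hβ0 hβint
  exact @orbSumInt_core584 k _ _ (borel (GL (Fin 2) k))
    (@BorelSpace.mk (GL (Fin 2) k) _ (borel (GL (Fin 2) k)) rfl) q hk l s hs hsl n φ hφ δ c hreg
    horb μ hμ hμU (twCentSub (glAut s) δ) (fun _ => Iff.rfl) (borel (twCentSub (glAut s) δ))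
    (@BorelSpace.mk (twCentSub (glAut s) δ) _ (borel (twCentSub (glAut s) δ)) rfl) μT hμT hμTc
    β hβc hβ0 hβint

end Fermat.Agent.LT.T6.H584

end
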