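import Mathlib
import Fermat.Agent.LT.T6.Spec
import Fermat.Agent.LT.T6.H584.OrbSumInt

/-!
# Row LT, tower T6/T7, asset (helper584), OFF-MAIN: THE LOCAL ORBITAL INTEGRAND IS INTEGRABLE

`T6.OrbSumIntC` gives the VALUE of the Bochner integral
`∫ φ(x⁻¹ δ s(x)) β(x) dμ(x) = c`; Fubini (the split places of `FactUpC305`, the sums over the
ray) needs the INTEGRABILITY of the integrand.  Under the hypotheses of `T6.OrbSumIntC`:

    orbIntegrable584 : Integrable (fun x => φ (x⁻¹ * δ * glAut s x) * (β x : ℂ)) μ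

(the integrand is the finite sum of the functions `φ(y) β 1_{T x_y U}`, `y` in the finite set of
representatives of the orbit sum, and `β` is integrable on every double coset `T x U`:
`integral_dcoset584`).  Imports: `T6/Spec.lean` (version of record), `T6/H584/OrbSumInt.lean`
(helper584, spare proof of `T6.OrbSumIntC`) and its imports.
-/

set_option autoImplicit false
set_option linter.unusedSectionVars false
set_option linter.style.haveILetI false
set_option linter.deprecated false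
set_option linter.unusedVariables false

open MeasureTheory Set
open scoped ENNReal

noncomputable section

namespace Fermat.Agent.LT.T6.H584

open Fermat.Agent.LT.T6 Fermat.Agent.LT.T6.H420

section CoreI

variable {k : Type} [Field k] [Valued k Γ₀]
  [MeasurableSpace (GL (Fin 2) k)] [BorelSpace (GL (Fin 2) k)]

/-- **Integrability of the local orbital integrand, core form** (instances as arguments). -/
theorem orbInt_integrable_core584 {q : ℕ} (hk : IsLocalField k q) (l : ℕ) (s : k ≃+* k)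
    (hs : ∀ y : k, Valued.v (s y) = Valued.v y) (hsl : ∀ y : k, (s ^ l) y = y)
    (n : ℕ) (φ : GL (Fin 2) k → ℂ) (hφ : IsBiInv (InU n) φ)
    (δ : GL (Fin 2) k) (c : ℂ) (hreg : IsReg (twNorm s l δ)) (horb : IsTwOrbSum s n φ δ c)
    (μ : Measure (GL (Fin 2) k)) [μ.IsHaarMeasure] (hμU : μ {g | InU n g} = 1)
    (T : Subgroup (GL (Fin 2) k)) (hT : ∀ x, x ∈ T ↔ x⁻¹ * δ * glAut s x = δ)
    [MeasurableSpace T] [BorelSpace T] (μT : Measure T) [μT.IsHaarMeasure]
    (hμTc : μT {t | Valued.v ((t : GL (Fin 2) k) : Matrix (Fin 2) (Fin 2) k).trace ≤ 1 ∧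
        Valued.v ((t : GL (Fin 2) k) : Matrix (Fin 2) (Fin 2) k).det = 1} = 1)
    (β : GL (Fin 2) k → ℝ) (hβc : Continuous β) (hβ0 : ∀ x, 0 ≤ β x)
    (hβint : ∀ x : GL (Fin 2) k, ∫ t : T, β ((t : GL (Fin 2) k) * x) ∂μT = 1) :
    Integrable (fun x => φ (x⁻¹ * δ * glAut s x) * (β x : ℂ)) μ := by
  classical
  obtain ⟨ϖ, hϖ⟩ := hk.unif
  have hUo := isOpen_subU (k := k) hϖ n
  have hT' : ∀ x, x ∈ T ↔ x ∈ twCentSub (glAut s) δ := hT
  obtain ⟨R, hR1, hR2, hR3, hc⟩ := horb
  choose! xr hxr using hR1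
  -- the double cosets
  set D : GL (Fin 2) k → Set (GL (Fin 2) k) :=
    fun y => dcoset584 T.subtype (subU n) (xr y) with hD
  have hDopen : ∀ y, IsOpen (D y) := by
    intro y
    rw [hD]
    simp only
    rw [dcoset_eq_iUnion584]
    exact isOpen_iUnion fun q => isOpen_cosetU584 (subU n) hUo _
  -- the value of the twisted conjugate on `D y`
  have hDtw : ∀ y ∈ R, ∀ x ∈ D y, ∃ u, InU n u ∧ x⁻¹ * δ * glAut s x = u⁻¹ * y * glAut s u := by
    intro y hy x hx
    obtain ⟨t, u, hu, rfl⟩ := hx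
    refine ⟨u, hu, ?_⟩
    have := tw_of_dcoset584 (glAut s) δ (xr y) (t : GL (Fin 2) k) u ((hT' _).1 t.2)
    rw [← hxr y hy] at this
    exact this
  have hDφ : ∀ y ∈ R, ∀ x ∈ D y, φ (x⁻¹ * δ * glAut s x) = φ y := by
    intro y hy x hx
    obtain ⟨u, hu, hxu⟩ := hDtw y hy x hx
    rw [hxu]
    exact hφ u⁻¹ (glAut s u) y ((subU n).inv_mem hu) (inU_glAut584 s hs n u hu)
  have hDdisj : ∀ y ∈ R, ∀ y' ∈ R, y ≠ y' → Disjoint (D y) (D y') := by
    intro y hy y' hy' hne
    rw [Set.disjoint_left]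
    intro x hx hx'
    apply hne
    obtain ⟨u, hu, hxu⟩ := hDtw y hy x hx
    obtain ⟨u', hu', hxu'⟩ := hDtw y' hy' x hx'
    refine hR2 y hy y' hy' ⟨u * u'⁻¹, (subU n).mul_mem hu ((subU n).inv_mem hu'), ?_⟩
    have e : u⁻¹ * y * glAut s u = u'⁻¹ * y' * glAut s u' := by rw [← hxu, ← hxu']
    have e' : y' = u' * (u⁻¹ * y * glAut s u) * (glAut s u')⁻¹ := by
      rw [e]; group
    rw [e']
    simp only [map_mul, map_inv, mul_inv_rev, inv_inv]
    group
  have hzero : ∀ x, (∀ y ∈ R, x ∉ D y) → φ (x⁻¹ * δ * glAut s x) = 0 := by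
    intro x hx
    by_contra hne
    obtain ⟨y', hy', u, hu, hxu⟩ := hR3 (x⁻¹ * δ * glAut s x) ⟨x, rfl⟩ hne
    apply hx y' hy'
    have hz : x⁻¹ * δ * glAut s x
        = (xr y' * u)⁻¹ * δ * glAut s (xr y' * u) := by
      rw [hxu]
      conv_lhs => rw [hxr y' hy']
      simp only [map_mul, mul_inv_rev]
      group
    have ht : x * (xr y' * u)⁻¹ ∈ T := (hT' _).2 (mem_twCent_of_eq584 _ _ _ _ hz)
    exact ⟨⟨x * (xr y' * u)⁻¹, ht⟩, u, hu, by
      show x = x * (xr y' * u)⁻¹ * xr y' * u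
      group⟩
  -- the integrals over the double cosets
  have hint : ∀ y ∈ R, IntegrableOn β (D y) μ ∧
      ∫ x in D y, β x ∂μ = (cIndex (InU n) (InTwCentC s) y : ℝ) := by
    intro y hy
    have := integral_dcoset584 hk l s hs hsl n δ hreg μ hμU T hT μT hμTc β hβc hβ0 hβint (xr y)
    rw [← hxr y hy] at this
    exact this
  -- pointwise decomposition
  have hpt : ∀ x, φ (x⁻¹ * δ * glAut s x) * (β x : ℂ)
      = ∑ y ∈ R, (D y).indicator (fun x => φ y * (β x : ℂ)) x := by
    intro x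
    by_cases hx : ∃ y ∈ R, x ∈ D y
    · obtain ⟨y₀, hy₀, hxy₀⟩ := hx
      rw [Finset.sum_eq_single y₀]
      · rw [indicator_of_mem hxy₀, hDφ y₀ hy₀ x hxy₀]
      · intro y hy hne
        have : x ∉ D y := fun h =>
          (Set.disjoint_left.1 (hDdisj y hy y₀ hy₀ hne)) h hxy₀
        exact indicator_of_notMem this _
      · intro h
        exact absurd hy₀ h
    · push Not at hx
      rw [hzero x hx, zero_mul]
      symm
      apply Finset.sum_eq_zero
      intro y hy
      exact indicator_of_notMem (hx y hy) _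
  have hI : ∀ y ∈ R, Integrable ((D y).indicator (fun x => φ y * (β x : ℂ))) μ := by
    intro y hy
    rw [integrable_indicator_iff (hDopen y).measurableSet]
    exact ((hint y hy).1.ofReal (𝕜 := ℂ)).const_mul (φ y)
  exact (integrable_finset_sum R hI).congr (ae_of_all _ fun x => (hpt x).symm)

end CoreI

/-- **Integrability of the local orbital integrand** (the hypotheses of `T6.OrbSumIntC`,
Borel `σ`-algebras). -/
theorem orbIntegrable584 (k : Type) [Field k] [Valued k Γ₀] (q l : ℕ) (s : k ≃+* k)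
    (hk : IsLocalField k q) (hs : ∀ y : k, Valued.v (s y) = Valued.v y) (_hl : 0 < l)
    (hsl : ∀ y : k, (s ^ l) y = y) (n : ℕ) (φ : GL (Fin 2) k → ℂ)
    (hφ : IsBiInv (InU n) φ) (_hfs : HasFinSupp (InU n) φ) (δ : GL (Fin 2) k) (c : ℂ)
    (hreg : IsReg (twNorm s l δ)) (horb : IsTwOrbSum s n φ δ c)
    (μ : @Measure (GL (Fin 2) k) (borel _))
    (hμ : @Measure.IsHaarMeasure _ _ _ (borel _) μ) (hμU : μ {g | InU n g} = 1)
    (μT : @Measure (twCentSub (glAut s) δ) (borel _))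
    (hμT : @Measure.IsHaarMeasure _ _ _ (borel _) μT)
    (hμTc : μT {t | Valued.v ((t : GL (Fin 2) k) : Matrix (Fin 2) (Fin 2) k).trace ≤ 1 ∧
        Valued.v ((t : GL (Fin 2) k) : Matrix (Fin 2) (Fin 2) k).det = 1} = 1)
    (β : GL (Fin 2) k → ℝ) (hβc : Continuous β) (hβ0 : ∀ x, 0 ≤ β x)
    (hβint : ∀ x : GL (Fin 2) k,
      @integral _ _ _ _ (borel _) μT
        (fun t : twCentSub (glAut s) δ => β ((t : GL (Fin 2) k) * x)) = 1) :
    letI : MeasurableSpace (GL (Fin 2) k) := borel _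
    Integrable (fun x : GL (Fin 2) k => φ (x⁻¹ * δ * glAut s x) * (β x : ℂ)) μ :=
  @orbInt_integrable_core584 k _ _ (borel (GL (Fin 2) k))
    (@BorelSpace.mk (GL (Fin 2) k) _ (borel (GL (Fin 2) k)) rfl) q hk l s hs hsl n φ hφ δ c hreg
    horb μ hμ hμU (twCentSub (glAut s) δ) (fun _ => Iff.rfl) (borel (twCentSub (glAut s) δ))
    (@BorelSpace.mk (twCentSub (glAut s) δ) _ (borel (twCentSub (glAut s) δ)) rfl) μT hμT hμTc
    β hβc hβ0 hβint

end Fermat.Agent.LT.T6.H584

end
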